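import Mathlib.LinearAlgebra.Matrix.Adjugate
import Mathlib.RingTheory.Ideal.Operations
import Mathlib.RingTheory.Ideal.Quotient.Operations

/-!
# The determinant trick (layer GT of row S55)

If `b : K → B` is a finite family in an `R`-module and `m k • b k ∈ I • span (range b)` for all
`k`, then there is `μ ≡ ∏ k, m k (mod I)` with `μ • b k = 0` for all `k`.
-/

namespace Fermat.Agent.S55.GT

/-- If a square matrix `P` kills a vector `b` of module elements, so does `det P`. -/
theorem det_smul_eq_zero_of_sum_smul_eq_zero {R B K : Type*} [CommRing R] [AddCommGroup B]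
    [Module R B] [Fintype K] [DecidableEq K] (P : Matrix K K R) (b : K → B)
    (h : ∀ k, ∑ j, P k j • b j = 0) (k : K) : P.det • b k = 0 := by
  have h1 : ∑ j, (P.adjugate * P) k j • b j = 0 := by
    simp only [Matrix.mul_apply, Finset.sum_smul, mul_smul]
    rw [Finset.sum_comm]
    simp only [← Finset.smul_sum, h, smul_zero, Finset.sum_const_zero]
  rw [Matrix.adjugate_mul] at h1
  simpa [Matrix.smul_apply, Matrix.one_apply, ite_smul] using h1

/-- The determinant of `diagonal m - ν` is congruent to `∏ m` modulo `I` if `ν` has entries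
in `I`. -/
theorem det_diagonal_sub_mem {R K : Type*} [CommRing R] [Fintype K] [DecidableEq K]
    (I : Ideal R) (m : K → R) (ν : Matrix K K R) (hν : ∀ k j, ν k j ∈ I) :
    (Matrix.diagonal m - ν).det - ∏ k, m k ∈ I := by
  rw [← Ideal.Quotient.eq, RingHom.map_det, map_prod]
  have : (Ideal.Quotient.mk I).mapMatrix (Matrix.diagonal m - ν) =
      Matrix.diagonal (fun k => Ideal.Quotient.mk I (m k)) := by
    ext k j
    have h0 : Ideal.Quotient.mk I (ν k j) = 0 := Ideal.Quotient.eq_zero_iff_mem.2 (hν k j)
    by_cases hkj : k = j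
    · subst hkj
      simp [h0]
    · simp [hkj, h0]
  rw [this, Matrix.det_diagonal]

/-- **Determinant trick.** -/
theorem exists_smul_eq_zero_of_smul_mem {R B K : Type*} [CommRing R] [AddCommGroup B]
    [Module R B] [Fintype K] [DecidableEq K] (I : Ideal R) (b : K → B) (m : K → R)
    (h : ∀ k, m k • b k ∈ I • Submodule.span R (Set.range b)) :
    ∃ μ : R, μ - ∏ k, m k ∈ I ∧ ∀ k, μ • b k = 0 := by
  have h' : ∀ k, ∃ a : K →₀ R, (∀ j, a j ∈ I) ∧ (a.sum fun j c => c • b j) = m k • b k := by
    intro k
    obtain ⟨a, ha, hs⟩ := (Submodule.mem_ideal_smul_span_iff_exists_sum I b _).1 (h k)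
    exact ⟨a, ha, hs⟩
  choose ν hν hsum using h'
  refine ⟨(Matrix.diagonal m - Matrix.of (fun k j => ν k j)).det,
    det_diagonal_sub_mem I m _ (fun k j => hν k j), ?_⟩
  apply det_smul_eq_zero_of_sum_smul_eq_zero
  intro k
  have := hsum k
  rw [Finsupp.sum_fintype (ν k) (fun j c => c • b j) (fun _ => zero_smul _ _)] at this
  simp only [Matrix.sub_apply, Matrix.of_apply, sub_smul, Finset.sum_sub_distrib, this,
    Matrix.diagonal_apply, ite_smul, zero_smul, Finset.sum_ite_eq, Finset.mem_univ, if_true,
    sub_self]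

end Fermat.Agent.S55.GT
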