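import Mathlib.Algebra.MonoidAlgebra.Basic
import Mathlib.Algebra.Module.LinearMap.End
import Mathlib.Algebra.BigOperators.Ring.Finset

/-!
# Functions on a commutative group as a module over the group ring (layer GT of row S55)

For a commutative group `Q` and an additive commutative group `A`, the group ring `ℤ[Q]` acts on
functions `Q → A` by translation: `(single y 1 • F) x = F (y * x)`.
We also define the augmentation `ℤ[Q] → ℤ`.
-/

namespace Fermat.Agent.S55.GT

variable {Q A : Type*} [CommGroup Q] [AddCommGroup A]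

/-- Type synonym: functions `Q → A` with `ℤ[Q]` acting by translation. -/
def TransFun (Q A : Type*) := Q → A

instance TransFun.instAddCommGroup : AddCommGroup (TransFun Q A) :=
  inferInstanceAs (AddCommGroup (Q → A))

/-- Translation by `y` as a `ℤ`-linear endomorphism of `Q → A`. -/
def translEnd (y : Q) : Module.End ℤ (TransFun Q A) where
  toFun F := fun x => F (y * x)
  map_add' _ _ := rfl
  map_smul' _ _ := rfl

@[simp] theorem translEnd_apply (y : Q) (F : TransFun Q A) (x : Q) :
    translEnd y F x = F (y * x) := rfl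

/-- Translation as a monoid homomorphism `Q →* End_ℤ (Q → A)`. -/
def translHom : Q →* Module.End ℤ (TransFun Q A) where
  toFun := translEnd
  map_one' := by
    refine LinearMap.ext fun F => funext fun x => ?_
    simp
  map_mul' y z := by
    refine LinearMap.ext fun F => funext fun x => ?_
    simp [mul_assoc, mul_left_comm y z x]

noncomputable instance TransFun.instModule : Module (MonoidAlgebra ℤ Q) (TransFun Q A) :=
  Module.compHom _
    (MonoidAlgebra.lift ℤ (Module.End ℤ (TransFun Q A)) Q translHom).toRingHom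

theorem TransFun.smul_def (μ : MonoidAlgebra ℤ Q) (F : TransFun Q A) :
    μ • F = (MonoidAlgebra.lift ℤ (Module.End ℤ (TransFun Q A)) Q translHom μ) F := rfl

theorem TransFun.single_smul_apply (y : Q) (n : ℤ) (F : TransFun Q A) (x : Q) :
    (MonoidAlgebra.single y n • F) x = n • F (y * x) := by
  rw [TransFun.smul_def, MonoidAlgebra.lift_single]
  rfl

omit [CommGroup Q] in
theorem TransFun.add_apply (F F' : TransFun Q A) (x : Q) : (F + F') x = F x + F' x := rfl

omit [CommGroup Q] in
theorem TransFun.zero_apply (x : Q) : (0 : TransFun Q A) x = 0 := rfl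

theorem TransFun.smul_apply [Fintype Q] (μ : MonoidAlgebra ℤ Q) (F : TransFun Q A) (x : Q) :
    (μ • F) x = ∑ y, μ.coeff y • F (y * x) := by
  classical
  induction μ using MonoidAlgebra.induction_linear with
  | zero => simp [TransFun.zero_apply]
  | add μ ν hμ hν =>
    rw [add_smul, TransFun.add_apply, hμ, hν, ← Finset.sum_add_distrib]
    refine Finset.sum_congr rfl fun y _ => ?_
    rw [MonoidAlgebra.coeff_add, Finsupp.add_apply, add_smul]
  | single y n =>
    rw [TransFun.single_smul_apply, Finset.sum_eq_single y]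
    · simp
    · intro z _ hz
      simp [Ne.symm hz]
    · intro h
      exact absurd (Finset.mem_univ y) h

/-- The augmentation `ℤ[Q] → ℤ`. -/
noncomputable def augZ (Q : Type*) [CommGroup Q] : MonoidAlgebra ℤ Q →+* ℤ :=
  (MonoidAlgebra.lift ℤ ℤ Q (1 : Q →* ℤ)).toRingHom

@[simp] theorem augZ_single (y : Q) (n : ℤ) : augZ Q (MonoidAlgebra.single y n) = n := by
  change MonoidAlgebra.lift ℤ ℤ Q (1 : Q →* ℤ) (MonoidAlgebra.single y n) = n
  rw [MonoidAlgebra.lift_single]
  simp

theorem augZ_eq_sum [Fintype Q] (μ : MonoidAlgebra ℤ Q) : augZ Q μ = ∑ y, μ.coeff y := by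
  classical
  induction μ using MonoidAlgebra.induction_linear with
  | zero => simp
  | add μ ν hμ hν =>
    rw [map_add, hμ, hν, ← Finset.sum_add_distrib]
    rfl
  | single y n =>
    rw [augZ_single, Finset.sum_eq_single y]
    · simp
    · intro z _ hz
      simp [Ne.symm hz]
    · intro h
      exact absurd (Finset.mem_univ y) h

/-- An element of `ℤ[Q]` fixed by all translations has constant coefficients. -/
theorem coeff_eq_of_mul_single_eq (μ : MonoidAlgebra ℤ Q)
    (h : ∀ x : Q, μ * MonoidAlgebra.single x 1 = μ) (y z : Q) : μ.coeff y = μ.coeff z := by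
  have h1 : (μ * MonoidAlgebra.single (y⁻¹ * z) 1).coeff z = μ.coeff z := by rw [h (y⁻¹ * z)]
  rw [← h1, MonoidAlgebra.coeff_mul_single_apply μ (1 : ℤ) (y⁻¹ * z) z, mul_one]
  congr 1
  rw [mul_inv_rev, inv_inv, mul_inv_cancel_left]

/-- If `μ ∈ ℤ[Q]` is fixed by all translations and has augmentation `|Q|`, then it acts
on functions as the norm element: `(μ • F) 1 = ∑ y, F y`. -/
theorem smul_apply_one_of_mul_single_eq [Fintype Q] (μ : MonoidAlgebra ℤ Q)
    (h : ∀ x : Q, μ * MonoidAlgebra.single x 1 = μ) (hε : augZ Q μ = Fintype.card Q)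
    (F : TransFun Q A) : (μ • F) 1 = ∑ y, F y := by
  have hc : ∀ y, μ.coeff y = μ.coeff 1 := fun y => coeff_eq_of_mul_single_eq μ h y 1
  have h1 : μ.coeff 1 = 1 := by
    rw [augZ_eq_sum] at hε
    simp only [hc, Finset.sum_const, Finset.card_univ, nsmul_eq_mul] at hε
    have hpos : (0 : ℤ) < Fintype.card Q := by exact_mod_cast Fintype.card_pos
    have : (Fintype.card Q : ℤ) * (μ.coeff 1 - 1) = 0 := by rw [mul_sub, hε, mul_one, sub_self]
    rcases mul_eq_zero.1 this with h0 | h0
    · exact absurd h0 hpos.ne'
    · exact sub_eq_zero.1 h0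
  rw [TransFun.smul_apply]
  refine Finset.sum_congr rfl fun y _ => ?_
  rw [hc y, h1, one_smul, mul_one]

end Fermat.Agent.S55.GT
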