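import Mathlib.GroupTheory.FiniteAbelian.Basic
import Mathlib.GroupTheory.Commutator.Basic
import Mathlib.GroupTheory.Abelianization.Defs
import Fermat.Agent.S55.GT.H123.DetTrick
import Fermat.Agent.S55.GT.H123.TransFun

/-!
# Crossed homomorphisms into `ℤ[Q]`-modules (layer GT of row S55)

`π : G →* Q` a surjection onto a finite commutative group with kernel the commutator subgroup
of the finite group `G`, and `d : G → M` a map into a `ℤ[Q]`-module with
`d (g * g') = π g' • d g + d g'`.  Then there is `μ ∈ ℤ[Q]` of augmentation `|Q|` killing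
all `d g`.  This is the algebraic heart of the principal ideal theorem.
-/

namespace Fermat.Agent.S55.GT

open MonoidAlgebra (single)
open scoped commutatorElement

variable {G Q M : Type*} [Group G] [CommGroup Q] [AddCommGroup M] [Module (MonoidAlgebra ℤ Q) M]

/-- A crossed homomorphism `G → M` over `π : G →* Q` (with the convention
`d (g * g') = π g' • d g + d g'`). -/
def IsCrossed (π : G →* Q) (d : G → M) : Prop :=
  ∀ g g' : G, d (g * g') = single (π g') (1 : ℤ) • d g + d g'

namespace IsCrossed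

variable {π : G →* Q} {d : G → M}

theorem map_one (hd : IsCrossed π d) : d 1 = 0 := by
  have h := hd 1 1
  rw [mul_one, _root_.map_one, ← MonoidAlgebra.one_def, one_smul] at h
  exact left_eq_add.1 h

theorem map_inv (hd : IsCrossed π d) (g : G) : d g⁻¹ = -(single (π g)⁻¹ (1 : ℤ) • d g) := by
  have h := hd g g⁻¹
  rw [mul_inv_cancel, hd.map_one, _root_.map_inv] at h
  exact eq_neg_of_add_eq_zero_right h.symm

/-- The subgroup of `G` on which `d` takes values in a given submodule. -/
def memSubgroup (hd : IsCrossed π d) (B : Submodule (MonoidAlgebra ℤ Q) M) : Subgroup G where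
  carrier := {g | d g ∈ B}
  mul_mem' := fun {a b} ha hb => by
    change d (a * b) ∈ B
    rw [hd a b]
    exact B.add_mem (B.smul_mem _ ha) hb
  one_mem' := by
    change d 1 ∈ B
    rw [hd.map_one]
    exact B.zero_mem
  inv_mem' := fun {a} ha => by
    change d a⁻¹ ∈ B
    rw [hd.map_inv]
    exact B.neg_mem (B.smul_mem _ ha)

theorem mem_memSubgroup (hd : IsCrossed π d) {B : Submodule (MonoidAlgebra ℤ Q) M} {g : G} :
    g ∈ hd.memSubgroup B ↔ d g ∈ B := Iff.rfl

theorem map_pow (hd : IsCrossed π d) (g : G) (n : ℕ) :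
    d (g ^ n) = (∑ t ∈ Finset.range n, single (π g) (1 : ℤ) ^ t) • d g := by
  induction n with
  | zero => simp [hd.map_one]
  | succ n ih =>
    rw [pow_succ, hd, ih, Finset.sum_range_succ', smul_smul, add_smul, pow_zero, one_smul,
      Finset.mul_sum]
    congr 2
    refine Finset.sum_congr rfl fun t _ => ?_
    rw [pow_succ, mul_comm]

theorem commutator_mem (hd : IsCrossed π d) {B : Submodule (MonoidAlgebra ℤ Q) M} {x y : G}
    (hx : d x ∈ B) (hy : d y ∈ B) : d ⁅x, y⁆ ∈ RingHom.ker (augZ Q) • B := by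
  have h1 : ⁅x, y⁆ * (y * x) = x * y := by
    rw [commutatorElement_def]
    group
  have h2 := hd ⁅x, y⁆ (y * x)
  rw [h1, hd x y, hd y x] at h2
  have h3 : single (π (y * x)) (1 : ℤ) • d ⁅x, y⁆ =
      (single (π y) (1 : ℤ) - 1) • d x - (single (π x) (1 : ℤ) - 1) • d y := by
    rw [sub_smul, sub_smul, one_smul, one_smul]
    have := eq_sub_of_add_eq h2.symm
    rw [this]
    abel
  have h4 : d ⁅x, y⁆ =
      single (π (y * x))⁻¹ (1 : ℤ) • (single (π (y * x)) (1 : ℤ) • d ⁅x, y⁆) := by
    rw [smul_smul, MonoidAlgebra.single_mul_single, inv_mul_cancel, mul_one,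
      ← MonoidAlgebra.one_def, one_smul]
  rw [h4, h3]
  apply Submodule.smul_mem
  apply Submodule.sub_mem
  · exact Submodule.smul_mem_smul (by simp [RingHom.mem_ker, MonoidAlgebra.one_def]) hx
  · exact Submodule.smul_mem_smul (by simp [RingHom.mem_ker, MonoidAlgebra.one_def]) hy

theorem mem_of_mem_commutator (hd : IsCrossed π d) {B : Submodule (MonoidAlgebra ℤ Q) M}
    (hB : ∀ g, d g ∈ B) {h : G} (hh : h ∈ commutator G) : d h ∈ RingHom.ker (augZ Q) • B := by
  rw [commutator_eq_closure] at hh
  have : Subgroup.closure (commutatorSet G) ≤ hd.memSubgroup (RingHom.ker (augZ Q) • B) := by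
    rw [Subgroup.closure_le]
    rintro _ ⟨x, y, rfl⟩
    exact hd.commutator_mem (hB x) (hB y)
  exact this hh

end IsCrossed

/-- Structure theorem for finite commutative groups, in the form we need: generators `x i`
with `x i ^ n i = 1`, `∏ n i = |Q|`, and the `x i` generate `Q`. -/
theorem exists_generators_of_finite_commGroup (Q : Type*) [CommGroup Q] [Fintype Q] :
    ∃ (ι : Type) (_ : Fintype ι) (n : ι → ℕ) (x : ι → Q),
      (∀ i, x i ^ n i = 1) ∧ ∏ i, n i = Fintype.card Q ∧
        ∀ S : Subgroup Q, (∀ i, x i ∈ S) → S = ⊤ := by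
  classical
  obtain ⟨ι, hι, n, hn, ⟨e⟩⟩ := CommGroup.equiv_prod_multiplicative_zmod_of_finite Q
  have : ∀ i, NeZero (n i) := fun i => ⟨by have := hn i; omega⟩
  refine ⟨ι, hι, n, fun i => e.symm (Pi.mulSingle i (Multiplicative.ofAdd 1)), ?_, ?_, ?_⟩
  · intro i
    rw [← _root_.map_pow, ← Pi.mulSingle_pow, ← ofAdd_nsmul, nsmul_one, ZMod.natCast_self,
      ofAdd_zero, Pi.mulSingle_one, _root_.map_one]
  · rw [← Nat.card_eq_fintype_card, Nat.card_congr e.toEquiv, Nat.card_pi]
    refine Finset.prod_congr rfl fun i _ => ?_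
    exact (Nat.card_zmod (n i)).symm
  · intro S hS
    rw [eq_top_iff]
    intro q _
    have hq : q = e.symm (∏ i, Pi.mulSingle i (e q i)) := by
      rw [Finset.univ_prod_mulSingle, e.symm_apply_apply]
    rw [hq, map_prod]
    refine Subgroup.prod_mem _ fun i _ => ?_
    have : e q i = (Multiplicative.ofAdd (1 : ZMod (n i))) ^ (Multiplicative.toAdd (e q i)).val := by
      rw [← ofAdd_nsmul, nsmul_one, ZMod.natCast_zmod_val]
      rfl
    rw [this, Pi.mulSingle_pow, _root_.map_pow]
    exact Subgroup.pow_mem _ (hS i) _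

namespace IsCrossed

variable {π : G →* Q} {d : G → M}

/-- **Key theorem** (algebraic heart of the principal ideal theorem).  -/
theorem exists_annihilator [Finite G] [Fintype Q] (hd : IsCrossed π d)
    (hπ : Function.Surjective π) (hker : π.ker = commutator G) :
    ∃ μ : MonoidAlgebra ℤ Q, augZ Q μ = Fintype.card Q ∧ ∀ g, μ • d g = 0 := by
  classical
  obtain ⟨ι, _, n, x, hxn, hcard, hgen⟩ := exists_generators_of_finite_commGroup Q
  choose σ hσ using fun i => hπ (x i)
  letI : Fintype (commutator G) := Fintype.ofFinite _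
  let b : ι ⊕ commutator G → M := Sum.elim (fun i => d (σ i)) (fun h => d h)
  let m : ι ⊕ commutator G → MonoidAlgebra ℤ Q :=
    Sum.elim (fun i => ∑ t ∈ Finset.range (n i), single (x i) (1 : ℤ) ^ t) (fun _ => 1)
  have hB : ∀ g, d g ∈ Submodule.span (MonoidAlgebra ℤ Q) (Set.range b) := by
    have hk : π.ker ≤ hd.memSubgroup (Submodule.span (MonoidAlgebra ℤ Q) (Set.range b)) := by
      rw [hker]
      intro h hh
      exact Submodule.subset_span ⟨Sum.inr ⟨h, hh⟩, rfl⟩
    have h1 : hd.memSubgroup (Submodule.span (MonoidAlgebra ℤ Q) (Set.range b)) = ⊤ := by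
      rw [← Subgroup.comap_map_eq_self hk, hgen (Subgroup.map π _) ?_, Subgroup.comap_top]
      intro i
      exact ⟨σ i, Submodule.subset_span ⟨Sum.inl i, rfl⟩, hσ i⟩
    intro g
    have : g ∈ hd.memSubgroup (Submodule.span (MonoidAlgebra ℤ Q) (Set.range b)) :=
      h1 ▸ Subgroup.mem_top g
    exact this
  have hrel : ∀ k, m k • b k ∈
      RingHom.ker (augZ Q) • Submodule.span (MonoidAlgebra ℤ Q) (Set.range b) := by
    rintro (i | h)
    · change (∑ t ∈ Finset.range (n i), single (x i) (1 : ℤ) ^ t) • d (σ i) ∈ _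
      rw [← hσ i, ← hd.map_pow]
      apply hd.mem_of_mem_commutator hB
      rw [← hker, MonoidHom.mem_ker, _root_.map_pow, hσ i, hxn i]
    · change (1 : MonoidAlgebra ℤ Q) • d h ∈ _
      rw [one_smul]
      exact hd.mem_of_mem_commutator hB h.2
  obtain ⟨μ, hμ1, hμ2⟩ := exists_smul_eq_zero_of_smul_mem (RingHom.ker (augZ Q)) b m hrel
  refine ⟨μ, ?_, ?_⟩
  · have := (RingHom.mem_ker).1 hμ1
    rw [map_sub, sub_eq_zero] at this
    rw [this, map_prod, Fintype.prod_sum_type]
    simp [m, map_sum, ← hcard]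
  · intro g
    refine Submodule.span_induction (p := fun v _ => μ • v = 0) ?_ ?_ ?_ ?_ (hB g)
    · rintro _ ⟨k, rfl⟩
      exact hμ2 k
    · exact smul_zero _
    · intro v w _ _ hv hw
      rw [smul_add, hv, hw, add_zero]
    · intro a v _ hv
      rw [smul_comm, hv, smul_zero]

end IsCrossed

end Fermat.Agent.S55.GT
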