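import Mathlib.GroupTheory.Transfer
import Fermat.Agent.S55.GT.H123.Crossed

/-!
# The principal ideal theorem of group theory (layer GT of row S55)

For a finite group `G`, the transfer `G → A` of any homomorphism `ϕ : commutator G →* A` into a
commutative group is trivial.  In particular the transfer (Verlagerung)
`G^ab → (G')^ab` is trivial.

Main results:
* `sum_eq_zero_of_cocycle`, `prod_eq_one_of_cocycle`: abstract form.
* `transfer_eq_prod_section`: the transfer computed with an arbitrary section of `G → G ⧸ H`.
* `transfer_commutator_eq_one`: the principal ideal theorem.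
-/

namespace Fermat.Agent.S55.GT

open MonoidAlgebra (single)

/-- Abstract principal ideal theorem, additive form. -/
theorem sum_eq_zero_of_cocycle {G Q A : Type*} [Group G] [CommGroup Q] [AddCommGroup A]
    [Finite G] [Fintype Q] (π : G →* Q) (hπ : Function.Surjective π)
    (hker : π.ker = commutator G) (D : G → Q → A)
    (hD : ∀ g g' x, D (g * g') x = D g (π g' * x) + D g' x) (g : G) : ∑ x, D g x = 0 := by
  let D' : G → TransFun Q A := D
  let d : G → TransFun Q A × MonoidAlgebra ℤ Q := fun g => (D' g, single (π g) 1 - 1)
  have hd : IsCrossed π d := by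
    intro g g'
    refine Prod.ext ?_ ?_
    · funext x
      change D' (g * g') x = (single (π g') (1 : ℤ) • D' g + D' g') x
      rw [TransFun.add_apply, TransFun.single_smul_apply, one_smul]
      exact hD g g' x
    · change single (π (g * g')) (1 : ℤ) - 1 =
        single (π g') (1 : ℤ) • (single (π g) 1 - 1) + (single (π g') 1 - 1)
      rw [smul_eq_mul, mul_sub, MonoidAlgebra.single_mul_single, mul_one, mul_one, map_mul,
        mul_comm (π g)]
      abel
  obtain ⟨μ, hμε, hμ⟩ := hd.exists_annihilator hπ hker
  have h1 : ∀ x : Q, μ * single x 1 = μ := by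
    intro x
    obtain ⟨g, rfl⟩ := hπ x
    have := congrArg Prod.snd (hμ g)
    simp only [d, Prod.smul_snd, smul_eq_mul, Prod.snd_zero, mul_sub, mul_one, sub_eq_zero]
      at this
    exact this
  have h2 : μ • D' g = 0 := congrArg Prod.fst (hμ g)
  have h3 := smul_apply_one_of_mul_single_eq μ h1 hμε (D' g)
  rw [h2] at h3
  exact h3.symm

/-- Abstract principal ideal theorem, multiplicative form, with an auxiliary name `act`
for the translation action of `G` on `Q`. -/
theorem prod_eq_one_of_cocycle {G Q A : Type*} [Group G] [CommGroup Q] [CommGroup A]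
    [Finite G] [Fintype Q] (π : G →* Q) (hπ : Function.Surjective π)
    (hker : π.ker = commutator G) (act : G → Q → Q) (hact : ∀ g x, act g x = π g * x)
    (D : G → Q → A)
    (hD : ∀ g g' x, D (g * g') x = D g (act g' x) * D g' x) (g : G) : ∏ x, D g x = 1 := by
  have := sum_eq_zero_of_cocycle (A := Additive A) π hπ hker
    (fun g x => Additive.ofMul (D g x)) (fun g g' x => by rw [hD, hact]; rfl) g
  rw [← ofMul_prod] at this
  exact this

section Transfer

variable {G : Type*} [Group G] {H : Subgroup G} {A : Type*} [CommGroup A]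

theorem section_inv_mul_mem (s : G ⧸ H → G) (hs : ∀ q, (s q : G ⧸ H) = q) (g : G)
    (x : G ⧸ H) : (s (g • x))⁻¹ * (g * s x) ∈ H := by
  rw [← QuotientGroup.eq, hs]
  conv_lhs => rw [← hs x]
  rfl

/-- The "transfer cocycle" attached to a section `s` of `G → G ⧸ H`. -/
noncomputable def sectionCocycle (ϕ : H →* A) (s : G ⧸ H → G) (hs : ∀ q, (s q : G ⧸ H) = q)
    (g : G) (x : G ⧸ H) : A :=
  ϕ ⟨(s (g • x))⁻¹ * (g * s x), section_inv_mul_mem s hs g x⟩

theorem sectionCocycle_mul (ϕ : H →* A) (s : G ⧸ H → G) (hs : ∀ q, (s q : G ⧸ H) = q)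
    (g g' : G) (x : G ⧸ H) :
    sectionCocycle ϕ s hs (g * g') x =
      sectionCocycle ϕ s hs g (g' • x) * sectionCocycle ϕ s hs g' x := by
  unfold sectionCocycle
  rw [← map_mul]
  congr 1
  apply Subtype.ext
  simp only [Subgroup.coe_mul, mul_smul]
  group

/-- The transfer computed with an arbitrary section `s` of `G → G ⧸ H`:
`transfer ϕ g = ∏ x, ϕ (s (g • x)⁻¹ * g * s x)`. -/
theorem transfer_eq_prod_section [H.FiniteIndex] (ϕ : H →* A) (s : G ⧸ H → G)
    (hs : ∀ q, (s q : G ⧸ H) = q) (g : G) :
    letI := H.fintypeQuotientOfFiniteIndex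
    MonoidHom.transfer ϕ g = ∏ x : G ⧸ H, sectionCocycle ϕ s hs g x := by
  letI := H.fintypeQuotientOfFiniteIndex
  let T : H.LeftTransversal := ⟨Set.range s, Subgroup.isComplement_range_left hs⟩
  rw [MonoidHom.transfer_def ϕ T g]
  unfold Subgroup.leftTransversals.diff sectionCocycle
  refine (Fintype.prod_equiv (MulAction.toPerm g) _ _ (fun x => ?_)).symm
  congr 1
  apply Subtype.ext
  simp only [MulAction.toPerm_apply]
  rw [Subgroup.smul_apply_eq_smul_apply_inv_smul, inv_smul_smul]
  congr 2
  · exact (Subgroup.IsComplement.leftQuotientEquiv_apply hs (g • x)).symm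
  · exact (Subgroup.IsComplement.leftQuotientEquiv_apply hs x).symm

end Transfer

/-- **Principal ideal theorem of group theory**: for a finite group `G`, the transfer of any
homomorphism from the commutator subgroup to a commutative group is trivial. -/
theorem transfer_commutator_eq_one {G : Type*} [Group G] [Finite G] {A : Type*} [CommGroup A]
    (ϕ : ↥(commutator G) →* A) : MonoidHom.transfer ϕ = 1 := by
  classical
  ext g
  have hsur : Function.Surjective (Abelianization.of : G →* Abelianization G) :=
    QuotientGroup.mk_surjective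
  let s : G ⧸ commutator G → G := fun q => (hsur q).choose
  have hs : ∀ q : G ⧸ commutator G, (s q : G ⧸ commutator G) = q := fun q => (hsur q).choose_spec
  rw [transfer_eq_prod_section ϕ s hs g, MonoidHom.one_apply]
  let act : G → G ⧸ commutator G → G ⧸ commutator G := fun g x => g • x
  have hact : ∀ (g : G) (x : G ⧸ commutator G), act g x = (QuotientGroup.mk g : G ⧸ commutator G) * x := by
    intro g x
    induction x using QuotientGroup.induction_on with
    | H a => rfl
  exact @prod_eq_one_of_cocycle G (Abelianization G) A _ _ _ _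
    (commutator G).fintypeQuotientOfFiniteIndex Abelianization.of hsur
    (QuotientGroup.ker_mk' _) act hact (sectionCocycle ϕ s hs)
    (fun g g' x => sectionCocycle_mul ϕ s hs g g' x) g

end Fermat.Agent.S55.GT
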